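import Fermat.Agent.S18.AbsDefs
import Fermat.Agent.S24.Cards
import Fermat.Prelude.Def_ModularCurve_ReductionModL
import Fermat.Prelude.Def_EllipticCurve_FrobeniusTrace

set_option autoImplicit false

/-!
# S18: concrete definitions (the core claim `CC`, the auxiliary line `x`, the context `Ctx`)
-/

noncomputable section

namespace Fermat.Agent.S18

open Polynomial IntermediateField ModularCurve AlgebraicCurve
open Fermat.Agent.S24 (Kb FN iotaK)

/-! ### The core claim -/

/-- all coefficients lie in `A`. -/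
def IntA (A : ValuationSubring Kb) (a : LaurentSeries Kb) : Prop := ∀ n, a.coeff n ∈ A

/-- all coefficients lie in the maximal ideal of `A`. -/
def SmallA (A : ValuationSubring Kb) (a : LaurentSeries Kb) : Prop := ∀ n, a.coeff n ∈ A.nonunits

/-- **Core claim** (Gauss form): `a ≡ b ≢ 0 mod 𝔪_A`, `m ∣ div (a/b)`  ⟹  `a/b` is an `m`-th power. -/
def CCStatement (N : ℕ) [NeZero N] (ℓ m : ℕ) : Prop :=
  ∀ A : ValuationSubring Kb, A.LiesOverPrime ℓ → ∀ a b : FN N,
    IntA A a.1 → IntA A b.1 → ¬ SmallA A b.1 → SmallA A (a.1 - b.1) →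
    (∀ v : Place Kb (FN N), (m : ℤ) ∣ v.ord (a / b)) → ∃ w : FN N, w ^ m = a / b

/-! ### The auxiliary line -/

/-- a rational cover `x ↦ j = B(x)/A(x)` of the `j`-line, with one remaining elliptic value `c`. -/
structure Line where
  Ap : ℤ[X]
  Bp : ℤ[X]
  c : ℤ
  ec : ℕ
  /-- the degree of `Ap` (order of the pole of `j` at `x = 0`). -/
  r : ℕ

/-- `j = (x+27)(x+243)³/x³` (used for `ℓ ≠ 3`). -/
def line3 : Line := ⟨X ^ 3, (X + 27) * (X + 243) ^ 3, -27, 3, 3⟩

/-- `j = (x+256)³/x²` (used for `ℓ = 3`). -/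
def line2 : Line := ⟨X ^ 2, (X + 256) ^ 3, -64, 2, 2⟩

/-- the line used at the prime `ℓ`. -/
def lineOf (ℓ : ℕ) : Line := if ℓ = 3 then line2 else line3

/-- `q⁻¹ w`. -/
def xOf (w : PowerSeries ℤ) : LaurentSeries ℤ :=
  HahnSeries.single (-1 : ℤ) 1 * HahnSeries.ofPowerSeries ℤ ℤ w

end Fermat.Agent.S18
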