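import Fermat.Agent.S18.CCPrime
import Fermat.Agent.S18.G.Step

set_option autoImplicit false
set_option synthInstance.maxHeartbeats 400000

/-! # S18 chapter G: the core claim for all exponents prime to `ℓ` -/

noncomputable section

namespace Fermat.Agent.S18

open Polynomial IntermediateField ModularCurve AlgebraicCurve
open Fermat.Agent.S24 (Kb FN iotaK)

theorem cc_one (N : ℕ) [NeZero N] (ℓ : ℕ) : CCStatement N ℓ 1 := by
  intro A _ a b _ _ _ _ _
  exact ⟨a / b, pow_one _⟩

/-- **The core claim.** -/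
theorem cc_gen (N : ℕ) [NeZero N] {ℓ : ℕ} (hℓ : ℓ.Prime) (hℓN : ¬ ℓ ∣ N) (m : ℕ) (hm : ¬ ℓ ∣ m) :
    CCStatement N ℓ m := by
  induction m using induction_on_primes with
  | zero => exact absurd (dvd_zero ℓ) hm
  | one => exact cc_one N ℓ
  | prime_mul p m hp ih =>
    have hpℓ : p ≠ ℓ := by
      rintro rfl
      exact hm (dvd_mul_right _ _)
    exact cc_step N hℓ p m hp hpℓ (cc_prime N ℓ p hℓ hℓN hp hpℓ)
      (ih fun h => hm (Dvd.dvd.mul_left h p))

end Fermat.Agent.S18
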