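import Fermat.Agent.S18.Red

/-! # S18 task RD3: `exists_good_lift` is proved in `Red.lean` (this file only re-exports it). -/
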