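import Fermat.Agent.S18.W.Closure
import Fermat.Agent.S18.W.Const

set_option autoImplicit false
set_option synthInstance.maxHeartbeats 400000

/-! # S18 chapter W: from the core claim to the statement on `J₀(N)` -/

noncomputable section

namespace Fermat.Agent.S18

open Polynomial IntermediateField ModularCurve AlgebraicCurve
open Fermat.Agent.S24 (Kb FN iotaK)

variable {A : ValuationSubring Kb} {N : ℕ}

theorem wire_toF_mul {y z : LaurentSeries A} (hy : Int2 A N y) (hz : Int2 A N z) :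
    (hy.mul hz).toF = hy.toF * hz.toF := Subtype.ext (map_mul (incA A) y z)

theorem wire_toF_pow {y : LaurentSeries A} (hy : Int2 A N y) (n : ℕ) :
    (hy.pow n).toF = hy.toF ^ n := Subtype.ext (map_pow (incA A) y n)

theorem wire_tok_mul {y z : LaurentSeries A} (hy : Int2 A N y) (hz : Int2 A N z) :
    (hy.mul hz).tok = hy.tok * hz.tok := Subtype.ext (map_mul (redA A) y z)

theorem wire_tok_pow {y : LaurentSeries A} (hy : Int2 A N y) (n : ℕ) :
    (hy.pow n).tok = hy.tok ^ n := Subtype.ext (map_pow (redA A) y n)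

theorem wire_tok_ne_zero {y : LaurentSeries A} (hy : Good A N y) : hy.toInt2.tok ≠ 0 :=
  fun h => hy.ne (congrArg Subtype.val h)

theorem wire_toF_const (a : A) :
    (Int2.const (A := A) (N := N) a).toF = algebraMap Kb (FN N) (a : Kb) := by
  apply Subtype.ext
  show coeffMap A.subtype (HahnSeries.C a) = algebraMap Kb (LaurentSeries Kb) (a : Kb)
  rw [algebraMap_laurentSeries_eq_single]
  exact coeffMap_single _ _ _

theorem wire_redA_const (a : A) :
    redA A (HahnSeries.C a) = HahnSeries.C (IsLocalRing.residue A a) :=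
  coeffMap_single _ _ _

theorem wire_coe_algebraMap (c : kA A) :
    ((algebraMap (kA A) (Fk A N) c : Fk A N) : LaurentSeries (kA A)) = HahnSeries.C c := by
  rw [IntermediateField.coe_algebraMap_apply, algebraMap_laurentSeries_eq_single]
  rfl

theorem wire_coe_aux (c : kA A) (s t g : Fk A N) (m : ℕ)
    (h : s = algebraMap (kA A) (Fk A N) c * (t * g ^ m)) :
    s.1 = HahnSeries.C c * (t.1 * g.1 ^ m) := by
  rw [h, ← wire_coe_algebraMap (N := N) c]
  rfl

set_option maxHeartbeats 1600000 in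
/-- **Wiring.** -/
theorem wire_main [NeZero N] {ℓ m : ℕ} (hm : m ≠ 0) (hA : A.LiesOverPrime ℓ)
    (hCC : CCStatement N ℓ m)
    {r : Place Kb (FN N) → Place (kA A) (Fk A N)} (hr : IsPlaceReductionModL A N r)
    (hgen : PrincipalGeneratedByIntegral A (IsLocalRing.residue A) N)
    (D : Divisor Kb (FN N)) (hD : m • D ∈ Divisor.principal (K := Kb) (F := FN N))
    (hrD : Finsupp.mapDomain r D ∈ Divisor.principal (K := kA A) (F := Fk A N)) :
    D ∈ Divisor.principal (K := Kb) (F := FN N) := by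
  obtain ⟨y₁, y₂, h₁, h₂, hy⟩ := exists_good_of_principal hgen _ hD
  obtain ⟨g, hg0, hg⟩ := hrD
  have hred := mapDomain_good hr h₁ h₂ _ hy
  have hmQ : ∀ Q : Place (kA A) (Fk A N),
      (m : ℤ) * Q.ord g = Q.ord h₁.toInt2.tok - Q.ord h₂.toInt2.tok := by
    intro Q
    rw [← hred Q, Finsupp.mapDomain_smul, Finsupp.smul_apply, hg Q, nsmul_eq_mul]
  have hk1 := wire_tok_ne_zero h₁
  have hk2 := wire_tok_ne_zero h₂
  -- the function without zeros and poles
  set f : Fk A N := h₁.toInt2.tok / (h₂.toInt2.tok * g ^ m) with hf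
  have hf0 : f ≠ 0 := div_ne_zero hk1 (mul_ne_zero hk2 (pow_ne_zero _ hg0))
  have hford : ∀ Q : Place (kA A) (Fk A N), Q.ord f = 0 := by
    intro Q
    rw [hf, Fermat.Agent.S24.ord_div Q hk1 (mul_ne_zero hk2 (pow_ne_zero _ hg0)),
      Q.ord_mul hk2 (pow_ne_zero _ hg0), Fermat.Agent.S24.ord_pow, hmQ Q]
    ring
  obtain ⟨c, hc0, hfc⟩ := const_of_ord_eq_zero hr f hf0 hford
  obtain ⟨a₀, rfl⟩ := IsLocalRing.residue_surjective c
  obtain ⟨a₂, b₂, ha₂, hb₂, hgab⟩ := exists_good_lift g hg0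
  have hC : Good A N (HahnSeries.C a₀) := by
    refine ⟨Int2.const a₀, ?_⟩
    rw [wire_redA_const]
    intro h
    exact hc0 (by simpa using h)
  have hya : Good A N (y₁ * b₂ ^ m) := h₁.mul (hb₂.pow m)
  have hyb : Good A N (HahnSeries.C a₀ * y₂ * a₂ ^ m) := (hC.mul h₂).mul (ha₂.pow m)
  -- the two reductions agree
  have hredeq : redA A (y₁ * b₂ ^ m) = redA A (HahnSeries.C a₀ * y₂ * a₂ ^ m) := by
    have h1 : (redA A y₁ : LaurentSeries (kA A)) =
        HahnSeries.C (IsLocalRing.residue A a₀) * (redA A y₂ * g.1 ^ m) := by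
      have h2 : h₁.toInt2.tok = f * (h₂.toInt2.tok * g ^ m) := by
        rw [hf, div_mul_cancel₀ _ (mul_ne_zero hk2 (pow_ne_zero _ hg0))]
      rw [hfc] at h2
      exact wire_coe_aux _ _ _ _ _ h2
    rw [map_mul, map_mul, map_mul, map_pow, map_pow, wire_redA_const, h1, ← hgab]
    ring
  -- apply the core claim
  have hFa := hya.toF_ne_zero
  have hFb := hyb.toF_ne_zero
  have hordab : ∀ v : Place Kb (FN N), v.ord (hya.toInt2.toF / hyb.toInt2.toF) =
      (m : ℤ) * (D v + v.ord hb₂.toInt2.toF - v.ord ha₂.toInt2.toF) := by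
    intro v
    have e1 : hya.toInt2.toF = h₁.toInt2.toF * hb₂.toInt2.toF ^ m := by
      rw [← wire_toF_pow, ← wire_toF_mul]
    have e2 : hyb.toInt2.toF =
        algebraMap Kb (FN N) (a₀ : Kb) * h₂.toInt2.toF * ha₂.toInt2.toF ^ m := by
      rw [← wire_toF_pow, ← wire_toF_const, ← wire_toF_mul, ← wire_toF_mul]
    have n1 := h₁.toF_ne_zero
    have n2 := h₂.toF_ne_zero
    have n3 := ha₂.toF_ne_zero
    have n4 := hb₂.toF_ne_zero
    have n5 : algebraMap Kb (FN N) (a₀ : Kb) ≠ 0 := by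
      rw [← wire_toF_const]; exact hC.toF_ne_zero
    have hDv := hy v
    rw [Finsupp.smul_apply, nsmul_eq_mul] at hDv
    rw [Fermat.Agent.S24.ord_div v hFa hFb, e1, e2, v.ord_mul n1 (pow_ne_zero _ n4),
      v.ord_mul (mul_ne_zero n5 n2) (pow_ne_zero _ n3), v.ord_mul n5 n2,
      Fermat.Agent.S24.ord_pow, Fermat.Agent.S24.ord_pow, Fermat.Agent.S24.ord_algebraMap]
    linear_combination -hDv
  obtain ⟨w, hw⟩ := hCC A hA hya.toInt2.toF hyb.toInt2.toF (intA_incA A _) (intA_incA A _)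
    (fun h => hyb.ne ((smallA_incA_iff A _).1 h))
    (by
      show SmallA A (incA A _ - incA A _)
      rw [← map_sub, smallA_incA_iff, map_sub, hredeq, sub_self])
    (fun v => ⟨_, hordab v⟩)
  have hw0 : w ≠ 0 := by
    rintro rfl
    rw [zero_pow hm] at hw
    exact div_ne_zero hFa hFb hw.symm
  refine ⟨w * ha₂.toInt2.toF / hb₂.toInt2.toF,
    div_ne_zero (mul_ne_zero hw0 ha₂.toF_ne_zero) hb₂.toF_ne_zero, fun v => ?_⟩
  have h5 : (m : ℤ) * v.ord w = (m : ℤ) * (D v + v.ord hb₂.toInt2.toF - v.ord ha₂.toInt2.toF) := by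
    rw [← hordab v, ← hw, Fermat.Agent.S24.ord_pow]
  have h6 := mul_left_cancel₀ (by exact_mod_cast hm : (m : ℤ) ≠ 0) h5
  rw [Fermat.Agent.S24.ord_div v (mul_ne_zero hw0 ha₂.toF_ne_zero) hb₂.toF_ne_zero,
    v.ord_mul hw0 ha₂.toF_ne_zero, h6]
  ring

end Fermat.Agent.S18
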