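import Fermat.Agent.S18.AbsDefs
import Fermat.Agent.S18.AT.Step
import Fermat.Agent.S18.AT.Inv
import Fermat.Agent.S18.AT.Comb
import Fermat.Agent.S18.AT.InvChart
import Fermat.Agent.S18.AT.Glue
import Fermat.Agent.S18.AT.Val

set_option autoImplicit false

/-! # S18 chapter AT (lead: helper14): the abstract connectedness theorem -/

namespace Fermat.Agent.S18

open Polynomial IntermediateField

theorem acc : ACCStatement := by
  intro R K E _ _ _ _ _ _ _ _ _ x hx hfin hconst 𝒱 ιx hgauss hV e he h0 h1 𝕜 _ _ _ jK c hc e0 ec einf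
    he0 hec heinf hirr0 hirrc hirrinf Hgen H0 Hc Hinf
  obtain ⟨ϖ, hϖ⟩ := IsDiscreteValuationRing.exists_irreducible R
  have hx0 : x ≠ 0 := by
    rintro rfl
    exact hx (isAlgebraic_zero)
  have hchart : IsChart 𝒱 x ιx := ⟨hx, hfin, hgauss, hV⟩
  have hidem : IdemLike 𝒱 x ιx e := he
  -- horizontal unramifiedness away from `0, c`
  have hor1 : HorUnram 𝕜 jK x ((X - C 0) * (X - C c)) := by
    intro c' hc'
    have h2 : c' ≠ 0 ∧ c' ≠ jK (algebraMap R K c) := by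
      simp only [Polynomial.map_mul, Polynomial.map_sub, map_X, map_C, eval_mul, eval_sub, eval_X,
        eval_C, map_zero, sub_zero, RingHom.comp_apply] at hc'
      exact ⟨left_ne_zero_of_mul hc', sub_ne_zero.1 (right_ne_zero_of_mul hc')⟩
    exact Hgen c' h2.1 h2.2
  have hor2 : HorUnram 𝕜 jK x ((X - C c) * X) := by
    intro c' hc'
    have h2 : c' ≠ 0 ∧ c' ≠ jK (algebraMap R K c) := by
      simp only [Polynomial.map_mul, Polynomial.map_sub, map_X, map_C, eval_mul, eval_sub, eval_X,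
        eval_C, RingHom.comp_apply] at hc'
      exact ⟨right_ne_zero_of_mul hc', sub_ne_zero.1 (left_ne_zero_of_mul hc')⟩
    exact Hgen c' h2.1 h2.2
  -- the point `x = 0`
  obtain ⟨k₁, y₁, hy₁, cy₁⟩ := chart_root_step 𝒱 hϖ hchart 𝕜 jK (c₀ := 0) he0
    (by simpa using hirr0) (X - C c) hor1 (by simpa using H0) e hidem
  -- the point `x = c`
  obtain ⟨k₂, y₂, hy₂, cy₂⟩ := chart_root_step 𝒱 hϖ hchart 𝕜 jK (c₀ := c) hec
    (by simpa [rE] using hirrc) X hor2 Hc e hidem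
  -- combine
  have hcop1 : IsCoprime ((X - C c : R[X]) ^ k₁) (X ^ k₂) := by
    apply IsCoprime.pow
    obtain ⟨u, hu⟩ := hc
    refine ⟨-C (↑u⁻¹ : R), C (↑u⁻¹ : R), ?_⟩
    have : (C (↑u⁻¹ : R) * C c : R[X]) = 1 := by
      rw [← C_mul, ← hu, Units.inv_mul, C_1]
    linear_combination this
  obtain ⟨yf, hyf, cyf⟩ := cong_of_isCoprime hϖ hcop1 hy₁ hy₂ (by simpa using cy₁)
    (by simpa using cy₂)
  -- the chart at infinity
  have hchart' : IsChart 𝒱 x⁻¹ ιx⁻¹ := isChart_inv 𝒱 hchart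
  have hidem' : IdemLike 𝒱 x⁻¹ ιx⁻¹ e := by
    intro φ hφ
    rw [emb_inv 𝒱 hx0] at hφ
    exact he φ hφ
  obtain ⟨k₃, y₃, hy₃, cy₃⟩ := chart_root_step 𝒱 hϖ hchart' 𝕜 jK (c₀ := 0) heinf
    (by simpa using hirrinf) (C c * X - 1) (horUnram_inv 𝕜 jK c hor1) (hinf_inv 𝕜 jK Hinf) e hidem'
  obtain ⟨k₄, hy₄⟩ := fin_to_inf (R := R) (K := K) hx0 hyf
  have cy₄ : CongA K ϖ x⁻¹ (x⁻¹ ^ k₄ * yf) (evR R K x⁻¹ (X ^ k₄) * e) := by
    have h3 : CongA K ϖ x⁻¹ yf e := (CongA_inv_iff hϖ hx0).2 cyf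
    have h4 := h3.mul_left hϖ (w := evR R K x⁻¹ (X ^ k₄))
      (InO.of_mem_CInt hϖ (evR_mem_CInt _ _))
    simpa [evR_X] using h4
  have hcop2 : IsCoprime ((C c * X - 1 : R[X]) ^ k₃) (X ^ k₄) := by
    apply IsCoprime.pow
    exact ⟨-1, C c, by ring⟩
  obtain ⟨yi, hyi, cyi⟩ := cong_of_isCoprime hϖ hcop2 hy₃ hy₄ (by simpa using cy₃) cy₄
  -- `e ^ 2 ≡ e`
  have hee : CongA K ϖ x (e ^ 2) e := by
    obtain ⟨η, hη, h5⟩ := exists_eq_mul_of_nonunits 𝒱 hϖ hchart (e ^ 2 - e) (by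
      intro φ hφ
      have h6 : φ (e ^ 2 - e) = φ e * (φ e - 1) := by
        rw [map_sub, map_pow]; ring
      rw [h6]
      rcases he φ hφ with h7 | h7
      · have h8 : φ e - 1 ∈ 𝒱.O := 𝒱.O.sub_mem (ValuationSubring.nonunits_subset h7) 𝒱.O.one_mem
        exact mul_mem_nonunits' _ h7 h8
      · have h8 : φ e ∈ 𝒱.O := by
          have := 𝒱.O.add_mem _ _ (ValuationSubring.nonunits_subset h7) 𝒱.O.one_mem
          simpa using this
        exact mul_mem_nonunits _ h8 h7)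
    exact ⟨η, hη, h5⟩
  -- glue
  obtain ⟨r, η, hη, hr⟩ := glue hϖ hx hfin hconst e yf yi hyf hyi cyf ((CongA_inv_iff hϖ hx0).1 cyi) hee
  -- contradiction
  have hηO : η ∈ OInt 𝒱 x ιx := (inO_iff_mem_OInt 𝒱 hϖ hchart η).1 hη
  have key : ∀ φ ∈ Emb 𝒱 x ιx, 𝒱.ιK (algebraMap R K r) - φ e ∈ 𝒱.O.nonunits := by
    intro φ hφ
    have h9 : ∀ a : R, φ (rE R K E a) = 𝒱.ιK (algebraMap R K a) := by
      intro a
      have := congrArg (fun f => f (algebraMap R K a)) hφ.1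
      simpa [rE] using this
    have h10 : 𝒱.ιK (algebraMap R K r) - φ e = 𝒱.ιK (algebraMap R K ϖ) * φ η := by
      rw [← h9, ← h9, ← map_sub, hr, map_mul]
    rw [h10]
    exact mul_mem_nonunits' _ (𝒱.map_nonunit ϖ hϖ.not_isUnit) (hηO φ hφ)
  obtain ⟨φ₀, hφ₀, h₀⟩ := h0
  obtain ⟨φ₁, hφ₁, h₁⟩ := h1
  have h11 : 𝒱.ιK (algebraMap R K r) ∈ 𝒱.O.nonunits := by
    have := add_mem_nonunits _ (key φ₀ hφ₀) h₀
    simpa using this
  have h12 : 𝒱.ιK (algebraMap R K r) - 1 ∈ 𝒱.O.nonunits := by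
    have := add_mem_nonunits _ (key φ₁ hφ₁) h₁
    simpa using this
  have h13 : (1 : 𝒱.Ω) ∈ 𝒱.O.nonunits := by
    have := sub_mem_nonunits _ h11 h12
    simpa using this
  exact one_notMem_nonunits _ h13

end Fermat.Agent.S18
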