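import Mathlib

set_option autoImplicit false

/-!
# S18, abstract part: definitions and the statement of the abstract connectedness theorem `acc`

`R` a DVR with fraction field `K` (char 0), `E / K(x)` a finite extension.

* vertical data: an algebraically closed valued field `(Ω, O)` with `ιK : K → Ω`, `x ↦ ιx`, inducing the
  Gauss valuation on `K(x)`; `Emb` = the `K(x)`-embeddings `E → Ω`.
* horizontal data: `LandsIn 𝕜 jK x ιs`: every embedding of `E` into an algebraic closure of `𝕜((s))`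
  which is `jK` on `K` and sends `x` to `ιs ∈ 𝕜((s))` has its image in `𝕜((s))`.
-/

noncomputable section

namespace Fermat.Agent.S18

open Polynomial IntermediateField

/-- vertical data: an algebraically closed valued field receiving `K`, with `R ⊆` valuation ring and
nonunits of `R` going to nonunits. -/
structure VData (R K : Type) [CommRing R] [Field K] [Algebra R K] where
  Ω : Type
  [fΩ : Field Ω]
  [acΩ : IsAlgClosed Ω]
  O : ValuationSubring Ω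
  ιK : K →+* Ω
  map_mem : ∀ r : R, ιK (algebraMap R K r) ∈ O
  map_nonunit : ∀ r : R, ¬ IsUnit r → ιK (algebraMap R K r) ∈ O.nonunits

attribute [instance] VData.fΩ VData.acΩ

section

variable {R K E : Type} [CommRing R] [Field K] [Algebra R K] [Field E] [Algebra K E]

/-- the embeddings `E → Ω` over `K(x)`. -/
def Emb (𝒱 : VData R K) (x : E) (ιx : 𝒱.Ω) : Set (E →+* 𝒱.Ω) :=
  {φ | φ.comp (algebraMap K E) = 𝒱.ιK ∧ φ x = ιx}

/-- `x ↦ ιx` induces the Gauss valuation on `R[x]`. -/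
def IsGauss (𝒱 : VData R K) (ιx : 𝒱.Ω) : Prop :=
  ιx ∈ 𝒱.O ∧ ∀ Q : R[X], Q.eval₂ (𝒱.ιK.comp (algebraMap R K)) ιx ∈ 𝒱.O.nonunits →
    ∀ i, ¬ IsUnit (Q.coeff i)

/-- distinct embeddings have distinct reductions. -/
def DistinctRed (𝒱 : VData R K) (x : E) (ιx : 𝒱.Ω) : Prop :=
  ∀ φ ∈ Emb 𝒱 x ιx, ∀ φ' ∈ Emb 𝒱 x ιx, φ ≠ φ' →
    ∃ y : E, (∀ ψ ∈ Emb 𝒱 x ιx, ψ y ∈ 𝒱.O) ∧ φ y - φ' y ∉ 𝒱.O.nonunits

/-- every embedding of `E` in an algebraic closure of `𝕜((s))` extending `jK`, `x ↦ ιs` lands in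
`𝕜((s))`. -/
def LandsIn (𝕜 : Type) [Field 𝕜] (jK : K →+* 𝕜) (x : E) (ιs : LaurentSeries 𝕜) : Prop :=
  ∀ φ : E →+* AlgebraicClosure (LaurentSeries 𝕜),
    (∀ a : K, φ (algebraMap K E a) =
      algebraMap (LaurentSeries 𝕜) (AlgebraicClosure (LaurentSeries 𝕜)) (HahnSeries.C (jK a))) →
    φ x = algebraMap (LaurentSeries 𝕜) (AlgebraicClosure (LaurentSeries 𝕜)) ιs →
    ∀ y : E, φ y ∈ (algebraMap (LaurentSeries 𝕜) (AlgebraicClosure (LaurentSeries 𝕜))).range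

end

/-- **Abstract connectedness theorem.**  A tame cover of `ℙ¹` over a DVR, branched (in char. 0) only
over `x = 0, c, ∞` (`c` a unit), whose special fibre is generically étale, has connected special
fibre: there is no `e ∈ E` which is `≡ 0` at some and `≡ 1` at the other extensions of the Gauss
valuation. -/
def ACCStatement : Prop :=
  ∀ (R K E : Type) [CommRing R] [IsDomain R] [IsDiscreteValuationRing R] [Field K] [CharZero K]
    [Algebra R K] [IsFractionRing R K] [Field E] [Algebra K E]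
    (x : E) (_hx : Transcendental K x) (_hfin : FiniteDimensional K⟮x⟯ E)
    (_hconst : ∀ y : E, IsAlgebraic K y → y ∈ (algebraMap K E).range)
    -- vertical data
    (𝒱 : VData R K) (ιx : 𝒱.Ω) (_hgauss : IsGauss 𝒱 ιx) (_hV : DistinctRed 𝒱 x ιx)
    -- the "idempotent"
    (e : E) (_he : ∀ φ ∈ Emb 𝒱 x ιx, φ e ∈ 𝒱.O.nonunits ∨ φ e - 1 ∈ 𝒱.O.nonunits)
    (_h0 : ∃ φ ∈ Emb 𝒱 x ιx, φ e ∈ 𝒱.O.nonunits)
    (_h1 : ∃ φ ∈ Emb 𝒱 x ιx, φ e - 1 ∈ 𝒱.O.nonunits)
    -- horizontal data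
    (𝕜 : Type) [Field 𝕜] [IsAlgClosed 𝕜] [CharZero 𝕜] (jK : K →+* 𝕜)
    (c : R) (_hc : IsUnit c) (e0 ec einf : ℕ)
    (_he0 : IsUnit (e0 : R)) (_hec : IsUnit (ec : R)) (_heinf : IsUnit (einf : R))
    (_hirr0 : Irreducible (X ^ e0 - C x : E[X]))
    (_hirrc : Irreducible (X ^ ec - C (x - algebraMap K E (algebraMap R K c)) : E[X]))
    (_hirrinf : Irreducible (X ^ einf - C x⁻¹ : E[X]))
    (_Hgen : ∀ c' : 𝕜, c' ≠ 0 → c' ≠ jK (algebraMap R K c) →
      ∃ ιs : LaurentSeries 𝕜, (ιs - HahnSeries.C c').order = 1 ∧ LandsIn 𝕜 jK x ιs)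
    (_H0 : ∃ ιs : LaurentSeries 𝕜, ιs.order = (e0 : ℤ) ∧ LandsIn 𝕜 jK x ιs)
    (_Hc : ∃ ιs : LaurentSeries 𝕜, (ιs - HahnSeries.C (jK (algebraMap R K c))).order = (ec : ℤ) ∧
      LandsIn 𝕜 jK x ιs)
    (_Hinf : ∃ ιs : LaurentSeries 𝕜, ιs.order = -(einf : ℤ) ∧ LandsIn 𝕜 jK x ιs),
    False

end Fermat.Agent.S18
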