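import Fermat.Agent.S18.B.DVR
import Fermat.Agent.S18.B.Trans
import Fermat.Agent.S18.B.Fin
import Fermat.Agent.S18.B.Units
import Fermat.Agent.S18.B.Irr

/-! # S18 chapter B: basic facts on the context (see the files `B/*.lean`) -/
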