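import Fermat.Agent.S18.Ctx
import Fermat.Agent.S18.H.Abstract
import Fermat.Agent.S18.H.Rel3
import Fermat.Agent.S18.H.Rel2

set_option autoImplicit false

/-! # S18 chapter H (horizontal side, from the S24 charts) -/

noncomputable section

namespace Fermat.Agent.S18

open Polynomial IntermediateField ModularCurve AlgebraicCurve
open Fermat.Agent.S24 (Kb FN iotaK)

namespace HSide

theorem map_aeval_int {R S : Type*} [CommRing R] [CommRing S] [Algebra ℤ R] [Algebra ℤ S]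
    (f : R →+* S) (x : R) (P : ℤ[X]) : f (aeval x P) = aeval (f x) P := by
  rw [aeval_def, aeval_def, hom_eval₂]
  congr 1
  exact Subsingleton.elim _ _

/-- `j(q^d)` as an element of `F_K`. -/
def jdK (K : Type) [Field K] (N : ℕ) [NeZero N] (d : ℕ) [NeZero d] (hd : d ∣ N) :
    modularFunctionFieldFullC K N :=
  ⟨qExpand K d (jqModC K), jqModCd_mem_full K N hd⟩

theorem toFN_jdK {K : Type} [Field K] (ι : K →+* Kb) (N : ℕ) [NeZero N] (d : ℕ) [NeZero d]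
    (hd : d ∣ N) : ((toFN ι N (jdK K N d hd) : FN N) : LaurentSeries Kb) = Fermat.Agent.S24.Jser d := by
  rw [toFN_coe, Fermat.Agent.S24.phi_Jser_of_ne, jqNModC]
  show coeffMap ι (qExpand K d (jqModC K)) = _
  rw [coeffMap_qExpand, coeffMap_jqModC]

/-- `j` as an element of `F_K`. -/
def jK0 (K : Type) [Field K] (N : ℕ) [NeZero N] : modularFunctionFieldFullC K N :=
  ⟨jqModC K, jqModC_mem_full K N⟩

theorem toFN_jK0 {K : Type} [Field K] (ι : K →+* Kb) (N : ℕ) [NeZero N] :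
    toFN ι N (jK0 K N) = Fermat.Agent.S24.jF N := by
  apply Subtype.ext
  rw [toFN_coe]
  show coeffMap ι (jqModC K) = Fermat.Agent.S24.Jser 1
  rw [coeffMap_jqModC, Fermat.Agent.S24.degree_Jser_one]

/-- constants are integral over `F_K`. -/
theorem isIntegralElem_const {K : Type} [Field K] (ι : K →+* Kb) (N : ℕ) [NeZero N] (a : Kb) :
    (toFN ι N).IsIntegralElem (algebraMap Kb (FN N) a) := by
  have : CharZero K := ι.charZero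
  have : CharZero (modularFunctionFieldFullC K N) :=
    charZero_of_injective_algebraMap (algebraMap K (modularFunctionFieldFullC K N)).injective
  have ha : IsIntegral ℚ a := ((AlgebraicClosure.isAlgebraic ℚ).isAlgebraic a).isIntegral
  refine ⟨(minpoly ℚ a).map (algebraMap ℚ (modularFunctionFieldFullC K N)),
    (minpoly.monic ha).map _, ?_⟩
  rw [eval₂_map]
  have h1 : (toFN ι N).comp (algebraMap ℚ (modularFunctionFieldFullC K N)) =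
      (algebraMap Kb (FN N)).comp (algebraMap ℚ Kb) := Subsingleton.elim _ _
  rw [h1, ← hom_eval₂, ← aeval_def, minpoly.aeval, map_zero]

/-- `F = ℚ̄(X₀(N))` is integral over `F_K`. -/
theorem isIntegralElem_toFN {K : Type} [Field K] (ι : K →+* Kb) (N : ℕ) [NeZero N] (f : FN N) :
    (toFN ι N).IsIntegralElem f := by
  -- elements of `A0`
  have key : ∀ (y : LaurentSeries Kb), y ∈ Fermat.Agent.S24.A0 N →
      ∃ g : FN N, (g : LaurentSeries Kb) = y ∧ (toFN ι N).IsIntegralElem g := by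
    intro y hy
    induction hy using Algebra.adjoin_induction with
    | mem y hy =>
      obtain ⟨d, hd, rfl⟩ := hy
      have : NeZero d := ⟨fun h => NeZero.ne N (by subst h; simpa using hd)⟩
      exact ⟨toFN ι N (jdK K N d hd), toFN_jdK ι N d hd, (toFN ι N).isIntegralElem_map⟩
    | algebraMap a => exact ⟨algebraMap Kb (FN N) a, rfl, isIntegralElem_const ι N a⟩
    | add y z hy hz h1 h2 =>
      obtain ⟨g1, rfl, h1⟩ := h1
      obtain ⟨g2, rfl, h2⟩ := h2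
      exact ⟨g1 + g2, rfl, RingHom.IsIntegralElem.add _ h1 h2⟩
    | mul y z hy hz h1 h2 =>
      obtain ⟨g1, rfl, h1⟩ := h1
      obtain ⟨g2, rfl, h2⟩ := h2
      exact ⟨g1 * g2, rfl, RingHom.IsIntegralElem.mul _ h1 h2⟩
  obtain ⟨u, w, hw, rfl⟩ := Fermat.Agent.S24.thetaIncl_exists_div N f
  obtain ⟨gu, hgu, hu⟩ := key u.1 u.2
  obtain ⟨gw, hgw, hw'⟩ := key w.1 w.2
  have e1 : Fermat.Agent.S24.thetaIncl N u = gu := Subtype.ext hgu.symm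
  have e2 : Fermat.Agent.S24.thetaIncl N w = gw := Subtype.ext hgw.symm
  rw [e1, e2]
  let _ : Algebra (modularFunctionFieldFullC K N) (FN N) := (toFN ι N).toAlgebra
  have h1 : IsIntegral (modularFunctionFieldFullC K N) gu := hu
  have h2 : IsIntegral (modularFunctionFieldFullC K N) gw := hw'
  have h3 : IsIntegral (modularFunctionFieldFullC K N) (gu / gw) := by
    rw [div_eq_mul_inv]
    exact h1.mul h2.inv
  exact h3

end HSide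

namespace Ctx

variable {N : ℕ} [NeZero N] {ℓ p : ℕ} {A : ValuationSubring Kb} (𝒞 : Ctx N ℓ p A)

theorem FK_le_E : 𝒞.FK ≤ 𝒞.E :=
  IntermediateField.adjoin.mono _ _ _ Set.subset_union_left

/-- `F_K → E`. -/
def incFE : 𝒞.FK →+* 𝒞.E := (IntermediateField.inclusion 𝒞.FK_le_E).toRingHom

theorem Λ_eq : 𝒞.Λ = line2 ∨ 𝒞.Λ = line3 := by
  unfold Ctx.Λ lineOf
  split_ifs
  · exact Or.inl rfl
  · exact Or.inr rfl

theorem closure_eq_top :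
    Subfield.closure (Set.range 𝒞.incFE ∪ {𝒞.x, 𝒞.uE}) = ⊤ := by
  have key : ∀ y : LaurentSeries 𝒞.K,
      y ∈ IntermediateField.adjoin 𝒞.K (divisorExpansionsC 𝒞.K N ∪ {xK 𝒞.K 𝒞.Λ, 𝒞.u}) →
      ∃ g : 𝒞.E, (g : LaurentSeries 𝒞.K) = y ∧
        g ∈ Subfield.closure (Set.range 𝒞.incFE ∪ {𝒞.x, 𝒞.uE}) := by
    intro y hy
    induction hy using IntermediateField.adjoin_induction with
    | mem y hy =>
      rcases hy with hy | hy | hy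
      · exact ⟨𝒞.incFE ⟨y, IntermediateField.subset_adjoin _ _ hy⟩, rfl,
          Subfield.subset_closure (Or.inl ⟨_, rfl⟩)⟩
      · exact ⟨𝒞.x, hy.symm, Subfield.subset_closure (Or.inr (Or.inl rfl))⟩
      · exact ⟨𝒞.uE, hy.symm, Subfield.subset_closure (Or.inr (Or.inr rfl))⟩
    | algebraMap r =>
      exact ⟨𝒞.incFE (algebraMap 𝒞.K 𝒞.FK r), rfl, Subfield.subset_closure (Or.inl ⟨_, rfl⟩)⟩
    | add y z _ _ h1 h2 =>
      obtain ⟨g1, rfl, h1⟩ := h1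
      obtain ⟨g2, rfl, h2⟩ := h2
      exact ⟨g1 + g2, rfl, add_mem h1 h2⟩
    | inv y _ h1 =>
      obtain ⟨g1, rfl, h1⟩ := h1
      exact ⟨g1⁻¹, rfl, inv_mem h1⟩
    | mul y z _ _ h1 h2 =>
      obtain ⟨g1, rfl, h1⟩ := h1
      obtain ⟨g2, rfl, h2⟩ := h2
      exact ⟨g1 * g2, rfl, mul_mem h1 h2⟩
  rw [eq_top_iff]
  intro y _
  obtain ⟨g, hg, hmem⟩ := key y.1 y.2
  have : g = y := Subtype.ext hg
  rwa [this] at hmem

theorem coe_aeval_E (y : 𝒞.E) (P : ℤ[X]) :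
    ((aeval y P : 𝒞.E) : LaurentSeries 𝒞.K) = aeval (y : LaurentSeries 𝒞.K) P :=
  HSide.map_aeval_int 𝒞.E.val.toRingHom y P

theorem rel_E : aeval 𝒞.x 𝒞.Λ.Bp = aeval 𝒞.x 𝒞.Λ.Ap * 𝒞.incFE (HSide.jK0 𝒞.K N) := by
  apply Subtype.ext
  have h := xK_rel 𝒞.K 𝒞.Λ 𝒞.Λ_eq
  show ((aeval 𝒞.x 𝒞.Λ.Bp : 𝒞.E) : LaurentSeries 𝒞.K) =
    ((aeval 𝒞.x 𝒞.Λ.Ap : 𝒞.E) : LaurentSeries 𝒞.K) * jqModC 𝒞.K
  rw [coe_aeval_E, coe_aeval_E, mul_comm]
  exact h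

/-- a chart value of `x` gives `LandsIn`. -/
theorem landsIn_of_isXChart (ιs : LaurentSeries ℂ) (h : H.IsXChart N 𝒞.Λ.Bp 𝒞.Λ.Ap ιs) :
    LandsIn ℂ 𝒞.jK 𝒞.x ιs := by
  intro φ _ hx y
  refine H.landsIn_abstract N 𝒞.Λ.Bp 𝒞.Λ.Ap 𝒞.incFE (toFN 𝒞.ι N) (HSide.isIntegralElem_toFN 𝒞.ι N)
    (HSide.jK0 𝒞.K N) (𝒞.a / 𝒞.b) (HSide.toFN_jK0 𝒞.ι N) 𝒞.x 𝒞.uE p 𝒞.hp.pos 𝒞.rel_E ?_ 𝒞.hord
    𝒞.closure_eq_top ιs h φ hx y
  exact Subtype.ext 𝒞.hu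

theorem jK_cR : 𝒞.jK (algebraMap 𝒞.R 𝒞.K 𝒞.cR) = (𝒞.Λ.c : ℂ) := by
  unfold Ctx.cR
  rw [map_intCast, map_intCast]

/-- generic points `x = c'`, `c' ≠ 0, c`: includes the points over `j = 0, 1728` where `x ↦ j` already
has ramification `3`, `2`. -/
theorem Hgen : ∀ c' : ℂ, c' ≠ 0 → c' ≠ 𝒞.jK (algebraMap 𝒞.R 𝒞.K 𝒞.cR) →
    ∃ ιs : LaurentSeries ℂ, (ιs - HahnSeries.C c').order = 1 ∧ LandsIn ℂ 𝒞.jK 𝒞.x ιs := by
  intro c' h0 h1
  rw [jK_cR] at h1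
  rcases 𝒞.Λ_eq with hΛ | hΛ
  · rw [hΛ] at h1
    obtain ⟨ιs, h2, h3⟩ := H.gen2 N c' h0 (by simpa [line2] using h1)
    exact ⟨ιs, h2, 𝒞.landsIn_of_isXChart ιs (by rw [hΛ]; exact h3)⟩
  · rw [hΛ] at h1
    obtain ⟨ιs, h2, h3⟩ := H.gen3 N c' h0 (by simpa [line3] using h1)
    exact ⟨ιs, h2, 𝒞.landsIn_of_isXChart ιs (by rw [hΛ]; exact h3)⟩

/-- `x = 0` (a pole of `j` of order `r`): `x = s^N`, `q = unit * s^(rN)`. -/
theorem H0 : ∃ ιs : LaurentSeries ℂ, ιs.order = (N : ℤ) ∧ LandsIn ℂ 𝒞.jK 𝒞.x ιs := by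
  rcases 𝒞.Λ_eq with hΛ | hΛ
  · obtain ⟨ιs, h2, h3⟩ := H.zero2 N
    exact ⟨ιs, h2, 𝒞.landsIn_of_isXChart ιs (by rw [hΛ]; exact h3)⟩
  · obtain ⟨ιs, h2, h3⟩ := H.zero3 N
    exact ⟨ιs, h2, 𝒞.landsIn_of_isXChart ιs (by rw [hΛ]; exact h3)⟩

/-- `x = c` (the unramified point over the elliptic value). -/
theorem Hc : ∃ ιs : LaurentSeries ℂ,
    (ιs - HahnSeries.C (𝒞.jK (algebraMap 𝒞.R 𝒞.K 𝒞.cR))).order = (𝒞.Λ.ec : ℤ) ∧
      LandsIn ℂ 𝒞.jK 𝒞.x ιs := by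
  rw [jK_cR]
  rcases 𝒞.Λ_eq with hΛ | hΛ
  · obtain ⟨ιs, h2, h3⟩ := H.ell2 N
    refine ⟨ιs, ?_, 𝒞.landsIn_of_isXChart ιs (by rw [hΛ]; exact h3)⟩
    rw [hΛ]
    simpa [line2] using h2
  · obtain ⟨ιs, h2, h3⟩ := H.ell3 N
    refine ⟨ιs, ?_, 𝒞.landsIn_of_isXChart ιs (by rw [hΛ]; exact h3)⟩
    rw [hΛ]
    simpa [line3] using h2

/-- `x = ∞` (a simple pole of `j`). -/
theorem Hinf : ∃ ιs : LaurentSeries ℂ, ιs.order = -(N : ℤ) ∧ LandsIn ℂ 𝒞.jK 𝒞.x ιs := by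
  rcases 𝒞.Λ_eq with hΛ | hΛ
  · obtain ⟨ιs, h2, h3⟩ := H.inf2 N
    exact ⟨ιs, h2, 𝒞.landsIn_of_isXChart ιs (by rw [hΛ]; exact h3)⟩
  · obtain ⟨ιs, h2, h3⟩ := H.inf3 N
    exact ⟨ιs, h2, 𝒞.landsIn_of_isXChart ιs (by rw [hΛ]; exact h3)⟩

end Ctx

end Fermat.Agent.S18
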