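import Fermat.Agent.S18.Ctx
import Fermat.Agent.S18.B.DVR
import Fermat.Agent.S18.V.Main

set_option autoImplicit false

/-! # S18 chapter V (vertical side, from S28): glue `Ctx → V.main` -/

noncomputable section

namespace Fermat.Agent.S18

open Polynomial IntermediateField ModularCurve AlgebraicCurve
open Fermat.Agent.S24 (Kb FN iotaK)

namespace VSide

/-- a series with coefficients in a valuation subring comes from a series over that subring. -/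
theorem exists_lift {K : Type} [Field K] (R : ValuationSubring K) (f : LaurentSeries K)
    (hf : ∀ n, f.coeff n ∈ R) :
    ∃ y : LaurentSeries R, V.cR R K y = f ∧ ∀ n, ((y.coeff n : R) : K) = f.coeff n := by
  refine ⟨⟨fun n => ⟨f.coeff n, hf n⟩, f.isPWO_support.mono ?_⟩, ?_, fun n => rfl⟩
  · intro n hn
    rw [Function.mem_support] at hn
    rw [HahnSeries.mem_support]
    intro h
    exact hn (Subtype.ext h)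
  · ext n
    rw [coeffMap_coeff]
    rfl

theorem isUnit_iff {K : Type} [Field K] (R : ValuationSubring K) (r : R) :
    IsUnit r ↔ (r : K) ∉ R.nonunits := by
  rw [ValuationSubring.coe_mem_nonunits_iff, IsLocalRing.mem_maximalIdeal, mem_nonunits_iff, not_not]

theorem order_xR (R : Type) [CommRing R] [Nontrivial R] (Λ : Line) :
    (xK R Λ).order = -1 ∧ (xK R Λ).coeff (-1) = 1 := by
  have h := XSer.order_aux R ((xW Λ).map (Int.castRingHom R)) (by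
    rw [← PowerSeries.coeff_zero_eq_constantCoeff_apply, PowerSeries.coeff_map,
      PowerSeries.coeff_zero_eq_constantCoeff_apply, constantCoeff_xW, map_one])
  rw [← XSer.xK_eq R] at h
  refine ⟨h.1, ?_⟩
  have h2 := h.2
  rw [HahnSeries.leadingCoeff_eq, h.1] at h2
  exact h2

end VSide

namespace Ctx

variable {N : ℕ} [NeZero N] {ℓ p : ℕ} {A : ValuationSubring Kb} (𝒞 : Ctx N ℓ p A)

theorem mem_R_iff (c : 𝒞.K) : c ∈ 𝒞.R ↔ 𝒞.ι c ∈ A := Iff.rfl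

theorem mem_R_nonunits_iff (c : 𝒞.K) : c ∈ 𝒞.R.nonunits ↔ 𝒞.ι c ∈ A.nonunits :=
  DVR.mem_nonunits_comap 𝒞.ι A c

theorem not_isUnit_ℓ : ¬ IsUnit (ℓ : 𝒞.R) := by
  rw [VSide.isUnit_iff, not_not, mem_R_nonunits_iff]
  push_cast
  rw [map_natCast]
  exact 𝒞.hA

theorem isUnit_p : IsUnit (p : 𝒞.R) := by
  haveI := 𝒞.isDVR
  by_contra h
  have hℓ := 𝒞.not_isUnit_ℓ
  have hcop : Nat.Coprime p ℓ := (Nat.coprime_primes 𝒞.hp 𝒞.hℓ).2 𝒞.hpℓ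
  have h1 : (p : 𝒞.R) ∈ IsLocalRing.maximalIdeal 𝒞.R := h
  have h2 : (ℓ : 𝒞.R) ∈ IsLocalRing.maximalIdeal 𝒞.R := hℓ
  have hb : ((p : ℤ) * Nat.gcdA p ℓ + (ℓ : ℤ) * Nat.gcdB p ℓ : ℤ) = 1 := by
    rw [← Nat.gcd_eq_gcd_ab, hcop.gcd_eq_one, Nat.cast_one]
  have h3 : (1 : 𝒞.R) ∈ IsLocalRing.maximalIdeal 𝒞.R := by
    have := congrArg (Int.cast : ℤ → 𝒞.R) hb
    push_cast at this
    rw [← this]
    exact add_mem (Ideal.mul_mem_right _ _ h1) (Ideal.mul_mem_right _ _ h2)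
  exact (Ideal.ne_top_iff_one _).1 (IsLocalRing.maximalIdeal.isMaximal _).ne_top h3

theorem Λ_cases : 𝒞.Λ = line2 ∨ 𝒞.Λ = line3 := by
  unfold Ctx.Λ lineOf
  split_ifs
  · exact Or.inl rfl
  · exact Or.inr rfl

theorem vhyp : V.VHyp 𝒞.R N ℓ (xK 𝒞.K 𝒞.Λ) where
  hℓN := 𝒞.hℓN
  hℓR := 𝒞.not_isUnit_ℓ
  hx := by
    refine ⟨xK 𝒞.R 𝒞.Λ, ?_, ?_, ?_⟩
    · rw [xK, xK, V.cR, coeffMap_coeffMap]
      exact coeffMap_congr (RingHom.ext_int _ _) _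
    · exact (VSide.order_xR 𝒞.R 𝒞.Λ).1
    · rw [(VSide.order_xR 𝒞.R 𝒞.Λ).2]
      exact isUnit_one
  hrel := by
    refine ⟨𝒞.Λ.Ap, 𝒞.Λ.Bp, xK_rel 𝒞.K 𝒞.Λ 𝒞.Λ_cases, ?_⟩
    have hx0 : xK 𝒞.K 𝒞.Λ ≠ 0 := by
      intro h
      have := order_xK 𝒞.K 𝒞.Λ
      rw [h, HahnSeries.order_zero] at this
      norm_num at this
    rcases 𝒞.Λ_cases with h | h
    · rw [h] at hx0 ⊢
      simpa [line2] using hx0
    · rw [h] at hx0 ⊢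
      simpa [line3] using hx0

theorem abhyp : V.ABHyp 𝒞.R 𝒞.a 𝒞.b := by
  obtain ⟨a₀, ha₀, ha₁⟩ := VSide.exists_lift 𝒞.R 𝒞.a.1 (fun n => by
    rw [mem_R_iff, ← coeffMap_coeff]
    exact 𝒞.ha n)
  obtain ⟨b₀, hb₀, hb₁⟩ := VSide.exists_lift 𝒞.R 𝒞.b.1 (fun n => by
    rw [mem_R_iff, ← coeffMap_coeff]
    exact 𝒞.hb n)
  refine ⟨a₀, b₀, ha₀, hb₀, ?_, ?_⟩
  · by_contra hcon
    push Not at hcon
    apply 𝒞.hb'
    intro n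
    have := hcon n
    rw [VSide.isUnit_iff, not_not, hb₁, mem_R_nonunits_iff, ← coeffMap_coeff] at this
    exact this
  · intro n
    rw [VSide.isUnit_iff, not_not, mem_R_nonunits_iff, HahnSeries.coeff_sub]
    have := 𝒞.hab n
    rw [HahnSeries.coeff_sub, coeffMap_coeff, coeffMap_coeff, ← map_sub] at this
    have e : (((a₀.coeff n - b₀.coeff n : 𝒞.R)) : 𝒞.K) = 𝒞.a.1.coeff n - 𝒞.b.1.coeff n := by
      rw [← ha₁, ← hb₁]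
      rfl
    rw [e]
    exact this

/-- **Chapter V.** -/
theorem exists_vdata (h : ¬ ∃ w ∈ 𝒞.E0, w ^ p = (𝒞.a / 𝒞.b).1) :
    ∃ (𝒱 : VData 𝒞.R 𝒞.K) (ιx : 𝒱.Ω), IsGauss 𝒱 ιx ∧ DistinctRed 𝒱 𝒞.x ιx ∧
      (∀ φ ∈ Emb 𝒱 𝒞.x ιx, φ 𝒞.e ∈ 𝒱.O.nonunits ∨ φ 𝒞.e - 1 ∈ 𝒱.O.nonunits) ∧
      (∃ φ ∈ Emb 𝒱 𝒞.x ιx, φ 𝒞.e ∈ 𝒱.O.nonunits) ∧
      (∃ φ ∈ Emb 𝒱 𝒞.x ιx, φ 𝒞.e - 1 ∈ 𝒱.O.nonunits) := by
  haveI := 𝒞.isDVR
  haveI : Fact ℓ.Prime := ⟨𝒞.hℓ⟩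
  exact ⟨V.vdata 𝒞.R 𝒞.K, V.inc 𝒞.K (xK 𝒞.K 𝒞.Λ),
    V.main 𝒞.vhyp 𝒞.hp 𝒞.isUnit_p 𝒞.ζ 𝒞.hζ 𝒞.abhyp 𝒞.hu h⟩

end Ctx

end Fermat.Agent.S18
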