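import Fermat.Agent.S18.ToFN

set_option autoImplicit false

/-! # S18 : the context of the proof of `CC` for a prime `p`

`K` is an ABSTRACT number field with an embedding `ι : K →+* ℚ̄` (not a subtype of `ℚ̄`: instance search
on `↥K` for `K : IntermediateField ℚ ℚ̄` is far too slow). -/

noncomputable section

namespace Fermat.Agent.S18

open Polynomial IntermediateField ModularCurve AlgebraicCurve
open Fermat.Agent.S24 (Kb FN iotaK)

/-- `F_K → F_ℚ̄`. -/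
def toFN {K : Type} [Field K] (ι : K →+* Kb) (N : ℕ) [NeZero N] :
    modularFunctionFieldFullC K N →+* FN N where
  toFun f := ⟨coeffMap ι f.1, coeffMap_mem_FN ι N f⟩
  map_one' := Subtype.ext (map_one (coeffMap ι))
  map_zero' := Subtype.ext (map_zero (coeffMap ι))
  map_mul' f g := Subtype.ext (map_mul (coeffMap ι) f.1 g.1)
  map_add' f g := Subtype.ext (map_add (coeffMap ι) f.1 g.1)

theorem toFN_coe {K : Type} [Field K] (ι : K →+* Kb) (N : ℕ) [NeZero N]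
    (f : modularFunctionFieldFullC K N) : (toFN ι N f).1 = coeffMap ι f.1 := rfl

/-- The context: a number field `K`, Galois over `ℚ`, embedded in `ℚ̄` by `ι`, containing `ζ_p` and `ζ_N`;
`a, b ∈ F_K` with `A`-integral coefficients, `a ≡ b ≢ 0`; `p ∣ div (a/b)`; `u ∈ K((q))` with
`u^p = a/b`. -/
structure Ctx (N : ℕ) [NeZero N] (ℓ p : ℕ) (A : ValuationSubring Kb) where
  hℓ : ℓ.Prime
  hℓN : ¬ ℓ ∣ N
  hA : A.LiesOverPrime ℓ
  hp : p.Prime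
  hpℓ : p ≠ ℓ
  K : Type
  [fK : Field K]
  [nfK : NumberField K]
  [galK : IsGalois ℚ K]
  ι : K →+* Kb
  ζ : K
  hζ : IsPrimitiveRoot ζ p
  ζN : K
  hζN : IsPrimitiveRoot ζN N
  a : modularFunctionFieldFullC K N
  b : modularFunctionFieldFullC K N
  ha : IntA A (coeffMap ι a.1)
  hb : IntA A (coeffMap ι b.1)
  hb' : ¬ SmallA A (coeffMap ι b.1)
  hab : SmallA A (coeffMap ι a.1 - coeffMap ι b.1)
  hord : ∀ v : Place Kb (FN N), (p : ℤ) ∣ v.ord (toFN ι N (a / b))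
  u : LaurentSeries K
  hu : u ^ p = (a / b).1

attribute [instance] Ctx.fK Ctx.nfK Ctx.galK

namespace Ctx

variable {N : ℕ} [NeZero N] {ℓ p : ℕ} {A : ValuationSubring Kb} (𝒞 : Ctx N ℓ p A)

/-- the line. -/
def Λ (_𝒞 : Ctx N ℓ p A) : Line := lineOf ℓ

/-- the DVR `R = A ∩ K`. -/
def R : ValuationSubring 𝒞.K := A.comap 𝒞.ι

/-- `F_K`. -/
abbrev FK : IntermediateField 𝒞.K (LaurentSeries 𝒞.K) := modularFunctionFieldFullC 𝒞.K N

/-- `E₀ = F_K(x)`. -/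
def E0 : IntermediateField 𝒞.K (LaurentSeries 𝒞.K) :=
  IntermediateField.adjoin 𝒞.K (divisorExpansionsC 𝒞.K N ∪ {xK 𝒞.K 𝒞.Λ})

/-- `E = F_K(x, u)`. -/
def E : IntermediateField 𝒞.K (LaurentSeries 𝒞.K) :=
  IntermediateField.adjoin 𝒞.K (divisorExpansionsC 𝒞.K N ∪ {xK 𝒞.K 𝒞.Λ, 𝒞.u})

theorem x_mem : xK 𝒞.K 𝒞.Λ ∈ 𝒞.E :=
  IntermediateField.subset_adjoin _ _ (Or.inr (Or.inl rfl))

theorem u_mem : 𝒞.u ∈ 𝒞.E :=
  IntermediateField.subset_adjoin _ _ (Or.inr (Or.inr rfl))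

/-- `x` as an element of `E`. -/
def x : 𝒞.E := ⟨xK 𝒞.K 𝒞.Λ, 𝒞.x_mem⟩

/-- `u` as an element of `E`. -/
def uE : 𝒞.E := ⟨𝒞.u, 𝒞.u_mem⟩

/-- the "idempotent" `e = (1 + u + ⋯ + u^(p-1))/p`. -/
def e : 𝒞.E := (∑ i ∈ Finset.range p, 𝒞.uE ^ i) / (p : 𝒞.E)

/-- `K → ℂ`. -/
def jK : 𝒞.K →+* ℂ := iotaK.comp 𝒞.ι

/-- the elliptic value `c` as an element of `R`. -/
def cR : 𝒞.R := (𝒞.Λ.c : 𝒞.R)

end Ctx

end Fermat.Agent.S18
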