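import Fermat.Agent.S18.Interface

set_option autoImplicit false
set_option synthInstance.maxHeartbeats 400000

/-! # S18 chapter RD: reduction of Laurent series with coefficients in `A` (small general lemmas) -/

noncomputable section

namespace Fermat.Agent.S18

open Polynomial IntermediateField ModularCurve AlgebraicCurve
open Fermat.Agent.S24 (Kb FN iotaK)

/-- the residue field of `A`. -/
abbrev kA (A : ValuationSubring Kb) : Type := IsLocalRing.ResidueField A

/-- `F_k`. -/
abbrev Fk (A : ValuationSubring Kb) (N : ℕ) : IntermediateField (kA A) (LaurentSeries (kA A)) :=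
  modularFunctionFieldFullC (kA A) N

/-- reduction `A((q)) → k((q))`. -/
abbrev redA (A : ValuationSubring Kb) : LaurentSeries A →+* LaurentSeries (kA A) :=
  coeffMap (IsLocalRing.residue A)

/-- inclusion `A((q)) → ℚ̄((q))`. -/
abbrev incA (A : ValuationSubring Kb) : LaurentSeries A →+* LaurentSeries Kb :=
  coeffMap A.subtype

/-- task RD1. -/
theorem intA_incA (A : ValuationSubring Kb) (y : LaurentSeries A) : IntA A (incA A y) := by
  intro n
  rw [coeffMap_coeff]
  exact (y.coeff n).2

/-- task RD1. -/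
theorem exists_incA_eq {A : ValuationSubring Kb} {a : LaurentSeries Kb} (ha : IntA A a) :
    ∃ y : LaurentSeries A, incA A y = a := by
  refine ⟨⟨fun n => ⟨a.coeff n, ha n⟩, ?_⟩, ?_⟩
  · refine a.isPWO_support.mono ?_
    intro n hn
    simp only [Function.mem_support, ne_eq] at hn ⊢
    intro h
    exact hn (Subtype.ext h)
  · ext n
    rw [coeffMap_coeff]
    rfl

/-- task RD1. -/
theorem incA_injective (A : ValuationSubring Kb) : Function.Injective (incA A) := by
  intro y z h
  ext n
  have := congrArg (fun s => s.coeff n) h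
  simp only [coeffMap_coeff] at this
  exact congrArg Subtype.val (Subtype.ext this)

/-- task RD1. -/
theorem smallA_incA_iff (A : ValuationSubring Kb) (y : LaurentSeries A) :
    SmallA A (incA A y) ↔ redA A y = 0 := by
  constructor
  · intro h
    ext n
    rw [coeffMap_coeff, HahnSeries.coeff_zero, IsLocalRing.residue_eq_zero_iff,
      IsLocalRing.mem_maximalIdeal]
    have := h n
    rw [coeffMap_coeff] at this
    exact (A.coe_mem_nonunits_iff).1 this
  · intro h n
    have := congrArg (fun s => s.coeff n) h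
    simp only [coeffMap_coeff, HahnSeries.coeff_zero] at this
    rw [IsLocalRing.residue_eq_zero_iff, IsLocalRing.mem_maximalIdeal] at this
    rw [coeffMap_coeff]
    exact (A.coe_mem_nonunits_iff).2 this

/-- `y ∈ A((q))` lies in `F_ℚ̄` and its reduction lies in `F_k`. -/
structure Int2 (A : ValuationSubring Kb) (N : ℕ) (y : LaurentSeries A) : Prop where
  memF : incA A y ∈ modularFunctionFieldBar N
  memk : redA A y ∈ Fk A N

/-- `Int2` and the reduction is non-zero. -/
structure Good (A : ValuationSubring Kb) (N : ℕ) (y : LaurentSeries A) : Prop extends Int2 A N y where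
  ne : redA A y ≠ 0

/-- the element of `F_ℚ̄`. -/
def Int2.toF {A : ValuationSubring Kb} {N : ℕ} {y : LaurentSeries A} (h : Int2 A N y) : FN N :=
  ⟨incA A y, h.memF⟩

/-- the element of `F_k`. -/
def Int2.tok {A : ValuationSubring Kb} {N : ℕ} {y : LaurentSeries A} (h : Int2 A N y) : Fk A N :=
  ⟨redA A y, h.memk⟩

section

variable {A : ValuationSubring Kb} {N : ℕ}

/-- task RD2. -/
theorem Int2.one : Int2 A N 1 := by
  refine ⟨?_, ?_⟩
  · rw [map_one]; exact one_mem _
  · rw [map_one]; exact one_mem _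

/-- task RD2. -/
theorem Int2.mul {y z : LaurentSeries A} (hy : Int2 A N y) (hz : Int2 A N z) : Int2 A N (y * z) := by
  refine ⟨?_, ?_⟩
  · rw [map_mul]; exact mul_mem hy.memF hz.memF
  · rw [map_mul]; exact mul_mem hy.memk hz.memk

/-- task RD2. -/
theorem Int2.sub {y z : LaurentSeries A} (hy : Int2 A N y) (hz : Int2 A N z) : Int2 A N (y - z) := by
  refine ⟨?_, ?_⟩
  · rw [map_sub]; exact sub_mem hy.memF hz.memF
  · rw [map_sub]; exact sub_mem hy.memk hz.memk

/-- task RD2. -/
theorem Int2.add {y z : LaurentSeries A} (hy : Int2 A N y) (hz : Int2 A N z) : Int2 A N (y + z) := by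
  refine ⟨?_, ?_⟩
  · rw [map_add]; exact add_mem hy.memF hz.memF
  · rw [map_add]; exact add_mem hy.memk hz.memk

/-- task RD2. -/
theorem Int2.const (a : A) : Int2 A N (HahnSeries.C a) := by
  refine ⟨?_, ?_⟩
  · have : incA A (HahnSeries.C a) = algebraMap Kb (LaurentSeries Kb) (a : Kb) := by
      rw [algebraMap_laurentSeries_eq_single]
      exact coeffMap_single _ _ _
    rw [this]
    exact IntermediateField.algebraMap_mem _ _
  · have : redA A (HahnSeries.C a) =
        algebraMap (kA A) (LaurentSeries (kA A)) (IsLocalRing.residue A a) := by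
      rw [algebraMap_laurentSeries_eq_single]
      exact coeffMap_single _ _ _
    rw [this]
    exact IntermediateField.algebraMap_mem _ _

/-- task RD2. -/
theorem Int2.pow {y : LaurentSeries A} (hy : Int2 A N y) (n : ℕ) : Int2 A N (y ^ n) := by
  refine ⟨?_, ?_⟩
  · rw [map_pow]; exact pow_mem hy.memF n
  · rw [map_pow]; exact pow_mem hy.memk n

/-- task RD2. -/
theorem Good.one : Good A N 1 := by
  refine ⟨Int2.one, ?_⟩
  rw [map_one]
  exact one_ne_zero

/-- task RD2. (`k((q))` is a domain.) -/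
theorem Good.mul {y z : LaurentSeries A} (hy : Good A N y) (hz : Good A N z) : Good A N (y * z) := by
  refine ⟨hy.toInt2.mul hz.toInt2, ?_⟩
  rw [map_mul]
  exact mul_ne_zero hy.ne hz.ne

/-- task RD2. -/
theorem Good.pow {y : LaurentSeries A} (hy : Good A N y) (n : ℕ) : Good A N (y ^ n) := by
  refine ⟨hy.toInt2.pow n, ?_⟩
  rw [map_pow]
  exact pow_ne_zero n hy.ne

/-- task RD2. -/
theorem Good.toF_ne_zero {y : LaurentSeries A} (hy : Good A N y) : hy.toInt2.toF ≠ 0 := by
  intro h
  have h1 : incA A y = 0 := congrArg Subtype.val h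
  have h2 : y = 0 := incA_injective A (by rw [h1, map_zero])
  exact hy.ne (by rw [h2, map_zero])

namespace Red

/-- every element of `k[j_d]` is the reduction of an `Int2` series. -/
theorem exists_int2_lift [NeZero N] (f : LaurentSeries (kA A))
    (hf : f ∈ Algebra.adjoin (kA A) (divisorExpansionsC (kA A) N)) :
    ∃ y : LaurentSeries A, Int2 A N y ∧ redA A y = f := by
  induction hf using Algebra.adjoin_induction with
  | mem x hx =>
    obtain ⟨d, hd0, hd, rfl⟩ := hx
    refine ⟨qExpand A d (jqModC A), ⟨?_, ?_⟩, ?_⟩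
    · have : incA A (qExpand A d (jqModC A)) = Fermat.Agent.S24.Jser d := by
        rw [Fermat.Agent.S24.phi_Jser_of_ne, jqNModC]
        show coeffMap _ _ = _
        rw [coeffMap_qExpand, coeffMap_jqModC]
      rw [this]
      exact Fermat.Agent.S24.A0_le N _ (Fermat.Agent.S24.Jser_mem_A0 hd)
    · show coeffMap _ _ ∈ _
      rw [coeffMap_qExpand, coeffMap_jqModC]
      exact jqModCd_mem_full _ N hd
    · show coeffMap _ _ = _
      rw [coeffMap_qExpand, coeffMap_jqModC]
  | algebraMap r =>
    obtain ⟨a, rfl⟩ := IsLocalRing.residue_surjective r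
    refine ⟨HahnSeries.C a, Int2.const a, ?_⟩
    rw [algebraMap_laurentSeries_eq_single]
    exact coeffMap_single _ _ _
  | add x y _ _ hx hy =>
    obtain ⟨x', hx', rfl⟩ := hx
    obtain ⟨y', hy', rfl⟩ := hy
    exact ⟨x' + y', hx'.add hy', map_add _ _ _⟩
  | mul x y _ _ hx hy =>
    obtain ⟨x', hx', rfl⟩ := hx
    obtain ⟨y', hy', rfl⟩ := hy
    exact ⟨x' * y', hx'.mul hy', map_mul _ _ _⟩

end Red

/-- task RD3.  `F_k = Frac k[j_d]`, and `k[j_d]` is the reduction of `A[j_d]`
(`IntermediateField.mem_adjoin_iff_div`/`Algebra.adjoin_induction`; `j_d ∈ ℤ((q))`). -/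
theorem exists_good_lift [NeZero N] (f : Fk A N) (hf : f ≠ 0) :
    ∃ a₁ b₁ : LaurentSeries A, Good A N a₁ ∧ Good A N b₁ ∧ f.1 * redA A b₁ = redA A a₁ := by
  have hf1 : f.1 ≠ 0 := fun h => hf (Subtype.ext h)
  have hmem : f.1 ∈ IntermediateField.adjoin (kA A) (divisorExpansionsC (kA A) N) := f.2
  rw [IntermediateField.mem_adjoin_iff_div] at hmem
  obtain ⟨r, hr, s, hs, hrs⟩ := hmem
  have hs0 : s ≠ 0 := by
    rintro rfl
    exact hf1 (by rw [hrs, div_zero])
  have hr0 : r ≠ 0 := by
    rintro rfl
    exact hf1 (by rw [hrs, zero_div])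
  obtain ⟨a₁, ha₁, rfl⟩ := Red.exists_int2_lift r hr
  obtain ⟨b₁, hb₁, rfl⟩ := Red.exists_int2_lift s hs
  refine ⟨a₁, b₁, ⟨ha₁, hr0⟩, ⟨hb₁, hs0⟩, ?_⟩
  rw [hrs, div_mul_cancel₀ _ hs0]

end

end Fermat.Agent.S18
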