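import Fermat.Agent.S18.XSer

/-! # S18 task ToFN -/

set_option autoImplicit false

noncomputable section

namespace Fermat.Agent.S18

open Polynomial IntermediateField ModularCurve AlgebraicCurve
open Fermat.Agent.S24 (Kb FN iotaK)

/-- task ToFN. `F_K → F_ℚ̄` on coefficients: `coeffMap ι` is a ring hom `K((q)) → ℚ̄((q))` sending
constants to constants and `j_d` to `j_d`; adjoin induction
(`modularFunctionFieldBar N = laurentBaseChange ℚ̄ (modularFunctionFieldFull N)`). -/
theorem coeffMap_mem_FN {K : Type} [Field K] (ι : K →+* Kb) (N : ℕ) [NeZero N]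
    (f : modularFunctionFieldFullC K N) : coeffMap ι f.1 ∈ modularFunctionFieldBar N := by
  obtain ⟨f, hf⟩ := f
  show coeffMap ι f ∈ modularFunctionFieldBar N
  change f ∈ IntermediateField.adjoin K (divisorExpansionsC K N) at hf
  induction hf using IntermediateField.adjoin_induction with
  | mem x hx =>
    obtain ⟨d, hd0, hd, rfl⟩ := hx
    have : coeffMap ι (qExpand K d (jqModC K)) = Fermat.Agent.S24.Jser d := by
      rw [Fermat.Agent.S24.phi_Jser_of_ne, jqNModC, coeffMap_qExpand, coeffMap_jqModC]
    rw [this]
    exact Fermat.Agent.S24.A0_le N _ (Fermat.Agent.S24.Jser_mem_A0 hd)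
  | algebraMap r =>
    rw [algebraMap_laurentSeries_eq_single, coeffMap_single, ← algebraMap_laurentSeries_eq_single]
    exact (modularFunctionFieldBar N).algebraMap_mem _
  | add x y _ _ hx hy =>
    rw [map_add]; exact add_mem hx hy
  | inv x _ hx =>
    rw [map_inv₀]; exact inv_mem hx
  | mul x y _ _ hx hy =>
    rw [map_mul]; exact mul_mem hx hy

end Fermat.Agent.S18
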