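import Fermat.Agent.S18.Interface
import Fermat.Agent.S18.H.Hensel

set_option autoImplicit false

/-! # S18 task XSer : the series `x` (Hensel in `ℤ[[q]]`) -/

noncomputable section

namespace Fermat.Agent.S18

open Polynomial ModularCurve

namespace XSer

/-- Hensel's lemma in `ℤ⟦q⟧` at the point `1`. -/
theorem hensel_one (P : Polynomial (PowerSeries ℤ))
    (h0 : PowerSeries.constantCoeff (R := ℤ) (P.eval 1) = 0)
    (h1 : PowerSeries.constantCoeff (R := ℤ) (P.derivative.eval 1) = 1) :
    ∃ T : PowerSeries ℤ, P.eval T = 0 ∧ PowerSeries.constantCoeff (R := ℤ) T = 1 := by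
  have hI : P.eval 1 ∈ (Ideal.span {PowerSeries.X} : Ideal (PowerSeries ℤ)) := by
    rw [Ideal.mem_span_singleton, PowerSeries.X_dvd_iff, h0]
  have hU : IsUnit (P.derivative.eval (1 : PowerSeries ℤ)) := by
    rw [PowerSeries.isUnit_iff_constantCoeff, h1]
    exact isUnit_one
  obtain ⟨T, hT, hT0⟩ := H.Hensel.exists_root_of_adicComplete (PowerSeries ℤ)
    (Ideal.span {PowerSeries.X}) P 1 hI (hU.map _)
  refine ⟨T, hT, ?_⟩
  rw [Ideal.mem_span_singleton, PowerSeries.X_dvd_iff, map_sub, map_one, sub_eq_zero] at hT0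
  exact hT0

theorem s_mul_t : (HahnSeries.single (-1 : ℤ) (1 : ℤ)) *
    HahnSeries.ofPowerSeries ℤ ℤ (PowerSeries.X : PowerSeries ℤ) = 1 := by
  rw [HahnSeries.ofPowerSeries_X, HahnSeries.single_mul_single]
  simp

theorem xOf_add (w : PowerSeries ℤ) (n : ℤ) :
    xOf w + (n : LaurentSeries ℤ) =
      HahnSeries.single (-1 : ℤ) 1 *
        HahnSeries.ofPowerSeries ℤ ℤ (w + (n : PowerSeries ℤ) * PowerSeries.X) := by
  rw [xOf, map_add, map_mul, mul_add, map_intCast, mul_left_comm, s_mul_t, mul_one]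

theorem jq_eq : jqModC ℤ = HahnSeries.single (-1 : ℤ) 1 * HahnSeries.ofPowerSeries ℤ ℤ jNum := by
  rw [jqModC]
  congr 2

theorem order_aux (K : Type*) [CommRing K] [Nontrivial K] (w : PowerSeries K)
    (hw : PowerSeries.constantCoeff w = 1) :
    (HahnSeries.single (-1 : ℤ) (1 : K) * HahnSeries.ofPowerSeries ℤ K w).order = -1 ∧
    (HahnSeries.single (-1 : ℤ) (1 : K) * HahnSeries.ofPowerSeries ℤ K w).leadingCoeff = 1 := by
  set y := HahnSeries.single (-1 : ℤ) (1 : K) * HahnSeries.ofPowerSeries ℤ K w with hy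
  have hc : ∀ n : ℤ, y.coeff (n + -1) = (HahnSeries.ofPowerSeries ℤ K w).coeff n := by
    intro n
    rw [hy, HahnSeries.coeff_single_mul_add, one_mul]
  have h1 : y.coeff (-1) = 1 := by
    have := hc 0
    rw [zero_add] at this
    rw [this]
    have h2 := HahnSeries.ofPowerSeries_apply_coeff (Γ := ℤ) w 0
    rw [Nat.cast_zero] at h2
    rw [h2, PowerSeries.coeff_zero_eq_constantCoeff_apply, hw]
  have hne : y ≠ 0 := by
    intro h
    rw [h] at h1
    simp at h1
  have hord : y.order = -1 := by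
    apply le_antisymm
    · exact HahnSeries.order_le_of_coeff_ne_zero (by rw [h1]; exact one_ne_zero)
    · rw [HahnSeries.le_order_iff_forall hne]
      intro j hj
      have := hc (j + 1)
      rw [show ((j + 1) + -1 : ℤ) = j by ring] at this
      rw [this]
      exact ofPowerSeries_coeff_of_neg _ (by omega)
  refine ⟨hord, ?_⟩
  rw [HahnSeries.leadingCoeff_eq, hord, h1]

theorem xK_eq (K : Type*) [CommRing K] (w : PowerSeries ℤ) :
    coeffMap (Int.castRingHom K) (xOf w) =
      HahnSeries.single (-1 : ℤ) (1 : K) *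
        HahnSeries.ofPowerSeries ℤ K (w.map (Int.castRingHom K)) := by
  rw [xOf, map_mul, coeffMap_single, map_one, coeffMap_ofPowerSeries]

end XSer

/-- Hensel in `ℤ[[q]]`: with `X = q⁻¹ w` the equation `B(X) = j A(X)` becomes
`(w+27q)(w+243q)³ = jNum w³` (resp. `(w+256q)³ = jNum w²`), which mod `q` is `w⁴ = w³`
(resp. `w³ = w²`) with the simple root `w = 1`. -/
theorem exists_xser (Λ : Line) (hΛ : Λ = line2 ∨ Λ = line3) :
    ∃ w : PowerSeries ℤ, PowerSeries.constantCoeff w = 1 ∧
      (Polynomial.aeval (xOf w) Λ.Bp : LaurentSeries ℤ) =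
        jqModC ℤ * Polynomial.aeval (xOf w) Λ.Ap := by
  have hJ := constantCoeff_jNum
  rcases hΛ with rfl | rfl
  · obtain ⟨w, hw, hw1⟩ := XSer.hensel_one
      ((X + C ((256 : PowerSeries ℤ) * PowerSeries.X)) ^ 3 - C jNum * X ^ 2)
      (by simp [hJ]) (by
        simp only [derivative_pow, derivative_X, derivative_C, derivative_sub, derivative_add,
          derivative_mul, eval_sub, eval_mul, eval_pow, eval_add, eval_X, eval_C, map_sub, map_mul,
          map_pow, map_add, map_one, hJ, eval_natCast, eval_one, eval_zero, map_natCast, map_zero,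
          PowerSeries.constantCoeff_X]
        norm_num)
    refine ⟨w, hw1, ?_⟩
    simp only [eval_sub, eval_mul, eval_pow, eval_add, eval_X, eval_C, sub_eq_zero] at hw
    have e1 : xOf w + 256 = HahnSeries.single (-1 : ℤ) 1 *
        HahnSeries.ofPowerSeries ℤ ℤ (w + 256 * PowerSeries.X) := by
      exact_mod_cast XSer.xOf_add w 256
    have hw' := congrArg (HahnSeries.ofPowerSeries ℤ ℤ) hw
    rw [map_pow, map_mul, map_pow] at hw'
    simp only [line2, map_pow, map_add, aeval_X, map_ofNat]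
    rw [e1, XSer.jq_eq, xOf]
    generalize HahnSeries.single (-1 : ℤ) (1 : ℤ) = s
    linear_combination s ^ 3 * hw'
  · obtain ⟨w, hw, hw1⟩ := XSer.hensel_one
      ((X + C ((27 : PowerSeries ℤ) * PowerSeries.X)) *
        (X + C ((243 : PowerSeries ℤ) * PowerSeries.X)) ^ 3 - C jNum * X ^ 3)
      (by simp [hJ]) (by
        simp only [derivative_pow, derivative_X, derivative_C, derivative_sub, derivative_add,
          derivative_mul, eval_sub, eval_mul, eval_pow, eval_add, eval_X, eval_C, map_sub, map_mul,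
          map_pow, map_add, map_one, hJ, eval_natCast, eval_one, eval_zero, map_natCast, map_zero,
          PowerSeries.constantCoeff_X]
        norm_num)
    refine ⟨w, hw1, ?_⟩
    simp only [eval_sub, eval_mul, eval_pow, eval_add, eval_X, eval_C, sub_eq_zero] at hw
    have e1 : xOf w + 27 = HahnSeries.single (-1 : ℤ) 1 *
        HahnSeries.ofPowerSeries ℤ ℤ (w + 27 * PowerSeries.X) := by
      exact_mod_cast XSer.xOf_add w 27
    have e2 : xOf w + 243 = HahnSeries.single (-1 : ℤ) 1 *
        HahnSeries.ofPowerSeries ℤ ℤ (w + 243 * PowerSeries.X) := by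
      exact_mod_cast XSer.xOf_add w 243
    have hw' := congrArg (HahnSeries.ofPowerSeries ℤ ℤ) hw
    rw [map_mul, map_pow, map_mul, map_pow] at hw'
    simp only [line3, map_pow, map_add, map_mul, aeval_X, map_ofNat]
    rw [e1, e2, XSer.jq_eq, xOf]
    generalize HahnSeries.single (-1 : ℤ) (1 : ℤ) = s
    linear_combination s ^ 4 * hw'

open Classical in
/-- the power series `w` with `x = q⁻¹ w`. -/
def xW (Λ : Line) : PowerSeries ℤ :=
  if h : Λ = line2 ∨ Λ = line3 then (exists_xser Λ h).choose else 1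

/-- the series `x ∈ ℤ((q))`. -/
def xZ (Λ : Line) : LaurentSeries ℤ := xOf (xW Λ)

/-- the series `x` with coefficients in `K`. -/
def xK (K : Type*) [CommRing K] (Λ : Line) : LaurentSeries K :=
  coeffMap (Int.castRingHom K) (xZ Λ)

theorem constantCoeff_xW (Λ : Line) : PowerSeries.constantCoeff (xW Λ) = 1 := by
  unfold xW
  split_ifs with h
  · exact (exists_xser Λ h).choose_spec.1
  · simp

theorem xZ_rel (Λ : Line) (hΛ : Λ = line2 ∨ Λ = line3) :
    (Polynomial.aeval (xZ Λ) Λ.Bp : LaurentSeries ℤ) = jqModC ℤ * Polynomial.aeval (xZ Λ) Λ.Ap := by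
  unfold xZ xW
  rw [dif_pos hΛ]
  exact (exists_xser Λ hΛ).choose_spec.2

/-- the relation over any commutative ring. -/
theorem xK_rel (K : Type*) [CommRing K] (Λ : Line) (hΛ : Λ = line2 ∨ Λ = line3) :
    (Polynomial.aeval (xK K Λ) Λ.Bp : LaurentSeries K) =
      jqModC K * Polynomial.aeval (xK K Λ) Λ.Ap := by
  have h := congrArg (coeffMap (Int.castRingHom K)) (xZ_rel Λ hΛ)
  rw [map_mul, coeffMap_jqModC] at h
  have key : ∀ P : ℤ[X], coeffMap (Int.castRingHom K) (Polynomial.aeval (xZ Λ) P) =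
      Polynomial.aeval (xK K Λ) P := fun P => by
    rw [Polynomial.aeval_def, Polynomial.hom_eval₂, Polynomial.aeval_def, xK]
    congr 1
    exact RingHom.ext_int _ _
  rw [key, key] at h
  exact h

theorem order_xK (K : Type*) [Field K] (Λ : Line) : (xK K Λ).order = -1 := by
  rw [xK, xZ, XSer.xK_eq K]
  refine (XSer.order_aux K _ ?_).1
  rw [← PowerSeries.coeff_zero_eq_constantCoeff_apply, PowerSeries.coeff_map,
    PowerSeries.coeff_zero_eq_constantCoeff_apply, constantCoeff_xW, map_one]

theorem leadingCoeff_xK (K : Type*) [Field K] (Λ : Line) : (xK K Λ).leadingCoeff = 1 := by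
  rw [xK, xZ, XSer.xK_eq K]
  refine (XSer.order_aux K _ ?_).2
  rw [← PowerSeries.coeff_zero_eq_constantCoeff_apply, PowerSeries.coeff_map,
    PowerSeries.coeff_zero_eq_constantCoeff_apply, constantCoeff_xW, map_one]

theorem order_xZ (Λ : Line) : (xZ Λ).order = -1 :=
  (XSer.order_aux ℤ _ (constantCoeff_xW Λ)).1

theorem leadingCoeff_xZ (Λ : Line) : (xZ Λ).leadingCoeff = 1 :=
  (XSer.order_aux ℤ _ (constantCoeff_xW Λ)).2

end Fermat.Agent.S18
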